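import Mathlib
import Fermat.Prelude.Def_GaloisRep_Flat

set_option autoImplicit false
set_option linter.style.haveILetI false
noncomputable section

namespace Fermat.Agent.Igusa

section Red

/-- `ℤ_(ℓ)` -/
abbrev Zl (ℓ : ℕ) : Type := ↥(GaloisRep.ratLocalizedAt ℓ)

variable (ℓ : ℕ)

theorem mem_ratLocalizedAt_iff {x : ℚ} : x ∈ GaloisRep.ratLocalizedAt ℓ ↔ x.den.Coprime ℓ := Iff.rfl

theorem div_mem_ratLocalizedAt {c : ℤ} {d : ℕ} (hd : d.Coprime ℓ) :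
    (c : ℚ) / (d : ℚ) ∈ GaloisRep.ratLocalizedAt ℓ := by
  rw [mem_ratLocalizedAt_iff]
  refine Nat.Coprime.coprime_dvd_left ?_ hd
  have := Rat.den_dvd c d
  rw [Rat.divInt_eq_div] at this
  exact_mod_cast this

theorem algebraMap_eq_zero_iff_dvd (K : Type*) [Field K] [CharP K ℓ] [Algebra (Zl ℓ) K] (x : Zl ℓ) :
    algebraMap (Zl ℓ) K x = 0 ↔ (ℓ : Zl ℓ) ∣ x := by
  constructor
  · intro h
    have hx := x.2
    rw [mem_ratLocalizedAt_iff] at hx
    have hnum : ((x : ℚ).num : Zl ℓ) = x * ((x:ℚ).den : Zl ℓ) := by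
      apply Subtype.ext
      push_cast
      exact (Rat.mul_den_eq_num _).symm
    have h0 : ((x : ℚ).num : K) = 0 := by
      have := congrArg (algebraMap (Zl ℓ) K) hnum
      rw [map_intCast, map_mul, h, zero_mul] at this
      exact this
    rw [CharP.intCast_eq_zero_iff K ℓ] at h0
    obtain ⟨c, hc⟩ := h0
    refine ⟨⟨_, div_mem_ratLocalizedAt ℓ (c := c) hx⟩, Subtype.ext ?_⟩
    push_cast
    have h1 : (x:ℚ) = (x:ℚ).num / (x:ℚ).den := (Rat.num_div_den _).symm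
    conv_lhs => rw [h1, hc]
    push_cast
    ring
  · rintro ⟨c, rfl⟩
    rw [map_mul, map_natCast, CharP.cast_eq_zero, zero_mul]

variable [Fact ℓ.Prime]

theorem exists_not_pow_dvd {x : Zl ℓ} (hx : x ≠ 0) : ∃ n : ℕ, ¬ (ℓ : Zl ℓ) ^ n ∣ x := by
  by_contra hcon
  push Not at hcon
  have hp : ℓ.Prime := Fact.out
  have hnum : ((x : ℚ).num) ≠ 0 := by
    rw [Ne, Rat.num_eq_zero]
    exact fun h => hx (Subtype.ext h)
  -- ℓ^n ∣ num for all n
  have key : ∀ n : ℕ, (ℓ : ℤ) ^ n ∣ (x : ℚ).num := by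
    intro n
    obtain ⟨c, hc⟩ := hcon n
    have h2 : (x : ℚ) = (ℓ : ℚ)^n * c := by
      have := congrArg Subtype.val hc
      push_cast at this
      exact this
    have h3 : (x : ℚ).num * (c : ℚ).den = (ℓ : ℤ)^n * (c : ℚ).num * (x : ℚ).den := by
      have e1 : ((x : ℚ).num : ℚ) = x * (x : ℚ).den := (Rat.mul_den_eq_num _).symm
      have e2 : ((c : ℚ).num : ℚ) = c * (c : ℚ).den := (Rat.mul_den_eq_num _).symm
      have : (((x : ℚ).num * (c : ℚ).den : ℤ) : ℚ) = (((ℓ : ℤ)^n * (c : ℚ).num * (x : ℚ).den : ℤ) : ℚ) := by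
        push_cast
        rw [e1, e2, h2]
        ring
      exact_mod_cast this
    have h4 : (ℓ : ℤ)^n ∣ (x : ℚ).num * (c : ℚ).den := ⟨(c : ℚ).num * (x : ℚ).den, by rw [h3]; ring⟩
    have h5 : IsCoprime ((ℓ : ℤ)^n) ((c : ℚ).den : ℤ) := by
      apply IsCoprime.pow_left
      rw [Nat.isCoprime_iff_coprime]
      exact Nat.Coprime.symm c.2
    exact h5.dvd_of_dvd_mul_right h4
  obtain ⟨n, hn⟩ : ∃ n : ℕ, (x : ℚ).num.natAbs < ℓ ^ n := ⟨_, Nat.lt_pow_self hp.one_lt⟩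
  have h6 := Int.natAbs_dvd_natAbs.mpr (key n)
  rw [Int.natAbs_pow, Int.natAbs_natCast] at h6
  have := Nat.le_of_dvd (Int.natAbs_pos.mpr hnum) h6
  omega

/-- every rational is in `Zl` after multiplying by a power of `ℓ` -/
theorem exists_pow_mul_mem (c : ℚ) : ∃ (m : ℕ) (a : Zl ℓ), (ℓ : ℚ) ^ m * c = a := by
  have hp : ℓ.Prime := Fact.out
  obtain ⟨m, d, hd, hcd⟩ := Nat.exists_eq_pow_mul_and_not_dvd c.den_ne_zero ℓ hp.ne_one
  have hcop : d.Coprime ℓ := Nat.Coprime.symm ((Nat.Prime.coprime_iff_not_dvd hp).mpr hd)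
  refine ⟨m, ⟨(c.num : ℚ) / (d : ℚ), div_mem_ratLocalizedAt ℓ hcop⟩, ?_⟩
  have hl : (ℓ : ℚ) ≠ 0 := by exact_mod_cast hp.ne_zero
  have hd0 : (d : ℚ) ≠ 0 := by
    rintro h
    apply hd
    have : d = 0 := by exact_mod_cast h
    rw [this]; exact dvd_zero _
  have h1 : c = c.num / c.den := (Rat.num_div_den _).symm
  conv_lhs => rw [h1, hcd]
  push_cast
  field_simp

end Red

end Fermat.Agent.Igusa
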