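import Mathlib
import Fermat.Prelude.Def_ModularCurve_X0ModL
import Fermat.Prelude.Def_ModularCurve_IgusaScheme
import Fermat.Agent.Igusa.Zl

set_option autoImplicit false
set_option linter.style.haveILetI false
open ModularCurve Polynomial
noncomputable section

namespace Fermat.Agent.Igusa

variable (ℓ : ℕ) (K : Type*) [Field K] [Algebra (Zl ℓ) K]

/-- inclusion of `Zl((q))` in `ℚ((q))` -/
def iotaL : LaurentSeries (Zl ℓ) →+* LaurentSeries ℚ := coeffMap (Subring.subtype _)

/-- reduction of `Zl((q))` to `K((q))` -/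
def redL : LaurentSeries (Zl ℓ) →+* LaurentSeries K := coeffMap (algebraMap (Zl ℓ) K)

theorem iotaL_injective : Function.Injective (iotaL ℓ) := by
  intro a b h
  ext n
  have := congrArg (fun x => HahnSeries.coeff x n) h
  exact this

variable [CharP K ℓ]

theorem redL_eq_zero_iff (a : LaurentSeries (Zl ℓ)) :
    redL ℓ K a = 0 ↔ (ℓ : LaurentSeries (Zl ℓ)) ∣ a := by
  constructor
  · intro h
    have hc : ∀ n, (ℓ : Zl ℓ) ∣ a.coeff n := by
      intro n
      rw [← algebraMap_eq_zero_iff_dvd ℓ K]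
      have := congrArg (fun x => HahnSeries.coeff x n) h
      exact this
    choose c hc using hc
    by_cases hl : (ℓ : Zl ℓ) = 0
    · have : a = 0 := by
        ext n
        rw [hc n, hl, zero_mul]
        rfl
      rw [this]; exact dvd_zero _
    · refine ⟨⟨c, ?_⟩, ?_⟩
      · apply a.isPWO_support.mono
        intro n hn
        rw [HahnSeries.mem_support, hc n]
        exact mul_ne_zero hl hn
      · ext n
        have : ((ℓ : LaurentSeries (Zl ℓ))) = HahnSeries.C (ℓ : Zl ℓ) := (map_natCast _ _).symm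
        rw [this, HahnSeries.C_mul_eq_smul, HahnSeries.coeff_smul]
        exact congrArg Subtype.val (hc n)
  · rintro ⟨c, rfl⟩
    rw [map_mul, map_natCast]
    have : ((ℓ : LaurentSeries K)) = HahnSeries.C (ℓ : K) := (map_natCast _ _).symm
    rw [this, CharP.cast_eq_zero, map_zero, zero_mul]

variable [Fact ℓ.Prime]

theorem exists_not_pow_dvd_laurent {a : LaurentSeries (Zl ℓ)} (ha : a ≠ 0) :
    ∃ n : ℕ, ¬ (ℓ : LaurentSeries (Zl ℓ)) ^ n ∣ a := by
  obtain ⟨m, hm⟩ : ∃ m, a.coeff m ≠ 0 := by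
    by_contra hcon
    push Not at hcon
    exact ha (HahnSeries.ext (funext hcon))
  obtain ⟨n, hn⟩ := exists_not_pow_dvd ℓ hm
  refine ⟨n, fun h => hn ?_⟩
  obtain ⟨c, hc⟩ := h
  have h1 : ((ℓ : LaurentSeries (Zl ℓ)))^n = HahnSeries.C ((ℓ : Zl ℓ)^n) := by
    rw [map_pow, map_natCast]
  rw [h1, HahnSeries.C_mul_eq_smul] at hc
  exact ⟨c.coeff m, by rw [hc, HahnSeries.coeff_smul]; rfl⟩

theorem exists_eq_pow_mul_red_ne_zero {a : LaurentSeries (Zl ℓ)} (ha : a ≠ 0) :
    ∃ (n : ℕ) (b : LaurentSeries (Zl ℓ)), a = (ℓ : LaurentSeries (Zl ℓ)) ^ n * b ∧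
      redL ℓ K b ≠ 0 := by
  classical
  have hex := exists_not_pow_dvd_laurent ℓ ha
  obtain ⟨n, hn⟩ : ∃ n, Nat.find hex = n + 1 := by
    rcases h : Nat.find hex with _ | n
    · exfalso
      have := Nat.find_spec hex
      rw [h, pow_zero] at this
      exact this (one_dvd _)
    · exact ⟨n, rfl⟩
  have h1 : (ℓ : LaurentSeries (Zl ℓ)) ^ n ∣ a := by
    by_contra hcon
    have := Nat.find_min' hex hcon
    omega
  have h2 : ¬ (ℓ : LaurentSeries (Zl ℓ)) ^ (n + 1) ∣ a := by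
    rw [← hn]; exact Nat.find_spec hex
  obtain ⟨b, hb⟩ := h1
  refine ⟨n, b, hb, fun h => h2 ?_⟩
  rw [redL_eq_zero_iff] at h
  obtain ⟨c, hc⟩ := h
  exact ⟨c, by rw [hb, hc, pow_succ, mul_assoc]⟩

end Fermat.Agent.Igusa
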