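import Mathlib
import Fermat.Agent.Igusa.LaurentRed

set_option autoImplicit false
set_option linter.style.haveILetI false
set_option linter.unusedSectionVars false
open ModularCurve Polynomial
noncomputable section

namespace Fermat.Agent.Igusa

variable (ℓ : ℕ) (K : Type*) [Field K] [Algebra (Zl ℓ) K] [CharP K ℓ] [Fact ℓ.Prime]

instance : IsDomain (LaurentSeries (Zl ℓ)) := inferInstance

/-- The Gauss valuation ring `O` inside `ℚ((q))` (fractions `a/b` with `b` not divisible by `ℓ`). -/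
def gaussO : Subring (LaurentSeries ℚ) where
  carrier := {x | ∃ a b : LaurentSeries (Zl ℓ), redL ℓ K b ≠ 0 ∧ x * iotaL ℓ b = iotaL ℓ a}
  mul_mem' := by
    rintro x y ⟨a, b, hb, h⟩ ⟨a', b', hb', h'⟩
    refine ⟨a * a', b * b', by rw [map_mul]; exact mul_ne_zero hb hb', ?_⟩
    rw [map_mul, map_mul, ← h, ← h']; ring
  one_mem' := ⟨1, 1, by rw [map_one]; exact one_ne_zero, by simp⟩
  add_mem' := by
    rintro x y ⟨a, b, hb, h⟩ ⟨a', b', hb', h'⟩
    refine ⟨a * b' + a' * b, b * b', by rw [map_mul]; exact mul_ne_zero hb hb', ?_⟩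
    rw [map_mul, map_add, map_mul, map_mul, ← h, ← h']; ring
  zero_mem' := ⟨0, 1, by rw [map_one]; exact one_ne_zero, by simp⟩
  neg_mem' := by
    rintro x ⟨a, b, hb, h⟩
    exact ⟨-a, b, hb, by rw [map_neg, ← h]; ring⟩

theorem mem_gaussO_iff {x : LaurentSeries ℚ} : x ∈ gaussO ℓ K ↔
    ∃ a b : LaurentSeries (Zl ℓ), redL ℓ K b ≠ 0 ∧ x * iotaL ℓ b = iotaL ℓ a := Iff.rfl

theorem iotaL_ne_zero {b : LaurentSeries (Zl ℓ)} (hb : redL ℓ K b ≠ 0) : iotaL ℓ b ≠ 0 := by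
  rw [Ne, map_eq_zero_iff _ (iotaL_injective ℓ)]
  rintro rfl
  exact hb (map_zero _)

/-- The residue map on `O`. -/
def gaussRedFun (x : gaussO ℓ K) : LaurentSeries K :=
  redL ℓ K ((mem_gaussO_iff ℓ K).mp x.2).choose /
    redL ℓ K ((mem_gaussO_iff ℓ K).mp x.2).choose_spec.choose

theorem gaussRedFun_eq (x : gaussO ℓ K) {a b : LaurentSeries (Zl ℓ)} (hb : redL ℓ K b ≠ 0)
    (h : (x : LaurentSeries ℚ) * iotaL ℓ b = iotaL ℓ a) :
    gaussRedFun ℓ K x = redL ℓ K a / redL ℓ K b := by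
  unfold gaussRedFun
  have hs := ((mem_gaussO_iff ℓ K).mp x.2).choose_spec.choose_spec
  generalize ((mem_gaussO_iff ℓ K).mp x.2).choose_spec.choose = b' at hs
  generalize ((mem_gaussO_iff ℓ K).mp x.2).choose = a' at hs
  obtain ⟨hb', h'⟩ := hs
  rw [div_eq_div_iff hb' hb, ← map_mul, ← map_mul]
  congr 1
  apply iotaL_injective
  rw [map_mul, map_mul, ← h, ← h']; ring

def gaussRed : gaussO ℓ K →+* LaurentSeries K where
  toFun := gaussRedFun ℓ K
  map_one' := by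
    rw [gaussRedFun_eq ℓ K 1 (a := 1) (b := 1) (by rw [map_one]; exact one_ne_zero) (by simp)]
    simp
  map_zero' := by
    rw [gaussRedFun_eq ℓ K 0 (a := 0) (b := 1) (by rw [map_one]; exact one_ne_zero) (by simp)]
    simp
  map_mul' := by
    intro x y
    obtain ⟨a, b, hb, h⟩ := (mem_gaussO_iff ℓ K).mp x.2
    obtain ⟨a', b', hb', h'⟩ := (mem_gaussO_iff ℓ K).mp y.2
    rw [gaussRedFun_eq ℓ K x hb h, gaussRedFun_eq ℓ K y hb' h']
    have hbb : redL ℓ K (b * b') ≠ 0 := by rw [map_mul]; exact mul_ne_zero hb hb'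
    rw [gaussRedFun_eq ℓ K _ (a := a * a') hbb (by
      rw [map_mul, map_mul, ← h, ← h', Subring.coe_mul]; ring), map_mul, map_mul]
    field_simp
  map_add' := by
    intro x y
    obtain ⟨a, b, hb, h⟩ := (mem_gaussO_iff ℓ K).mp x.2
    obtain ⟨a', b', hb', h'⟩ := (mem_gaussO_iff ℓ K).mp y.2
    rw [gaussRedFun_eq ℓ K x hb h, gaussRedFun_eq ℓ K y hb' h']
    have hbb : redL ℓ K (b * b') ≠ 0 := by rw [map_mul]; exact mul_ne_zero hb hb'
    rw [gaussRedFun_eq ℓ K _ (a := a * b' + a' * b) hbb (by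
      rw [map_mul, map_add, map_mul, map_mul, ← h, ← h', Subring.coe_add]; ring), map_mul, map_add,
      map_mul, map_mul]
    field_simp

theorem gaussRed_eq (x : gaussO ℓ K) {a b : LaurentSeries (Zl ℓ)} (hb : redL ℓ K b ≠ 0)
    (h : (x : LaurentSeries ℚ) * iotaL ℓ b = iotaL ℓ a) :
    gaussRed ℓ K x = redL ℓ K a / redL ℓ K b := gaussRedFun_eq ℓ K x hb h

theorem iotaL_mem_gaussO (a : LaurentSeries (Zl ℓ)) : iotaL ℓ a ∈ gaussO ℓ K :=
  (mem_gaussO_iff ℓ K).mpr ⟨a, 1, by rw [map_one]; exact one_ne_zero, by simp⟩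

@[simp] theorem gaussRed_iotaL (a : LaurentSeries (Zl ℓ)) :
    gaussRed ℓ K ⟨iotaL ℓ a, iotaL_mem_gaussO ℓ K a⟩ = redL ℓ K a := by
  rw [gaussRed_eq ℓ K _ (a := a) (b := 1) (by rw [map_one]; exact one_ne_zero) (by simp)]
  simp

/-- an element of the maximal ideal is divisible by `ℓ` -/
theorem exists_eq_mul_of_gaussRed_eq_zero (x : gaussO ℓ K) (h : gaussRed ℓ K x = 0) :
    ∃ y : gaussO ℓ K, (x : LaurentSeries ℚ) = (ℓ : LaurentSeries ℚ) * y := by
  obtain ⟨a, b, hb, hab⟩ := (mem_gaussO_iff ℓ K).mp x.2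
  rw [gaussRed_eq ℓ K _ hb hab, div_eq_zero_iff, or_iff_left hb, redL_eq_zero_iff] at h
  obtain ⟨c, rfl⟩ := h
  have hb0 := iotaL_ne_zero ℓ K hb
  refine ⟨⟨iotaL ℓ c / iotaL ℓ b, (mem_gaussO_iff ℓ K).mpr ⟨c, b, hb, ?_⟩⟩, ?_⟩
  · exact div_mul_cancel₀ _ hb0
  · rw [map_mul, map_natCast] at hab
    change (x : LaurentSeries ℚ) = (ℓ : LaurentSeries ℚ) * (iotaL ℓ c / iotaL ℓ b)
    rw [← mul_div_assoc, ← hab, mul_div_cancel_right₀ _ hb0]

/-- For elements of the fraction field of `Zl((q))`, `O` is a valuation ring. -/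
theorem mem_or_inv_mem_gaussO {x : LaurentSeries ℚ}
    (hx : ∃ a b : LaurentSeries (Zl ℓ), b ≠ 0 ∧ x * iotaL ℓ b = iotaL ℓ a) :
    x ∈ gaussO ℓ K ∨ x⁻¹ ∈ gaussO ℓ K := by
  obtain ⟨a, b, hb, h⟩ := hx
  by_cases ha : a = 0
  · left
    rw [ha, map_zero, mul_eq_zero, map_eq_zero_iff _ (iotaL_injective ℓ), or_iff_left hb] at h
    rw [h]; exact zero_mem _
  have hl : (ℓ : LaurentSeries (Zl ℓ)) ≠ 0 := by
    intro h0
    have : iotaL ℓ (ℓ : LaurentSeries (Zl ℓ)) = 0 := by rw [h0, map_zero]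
    rw [map_natCast] at this
    have h2 : (ℓ : ℚ) = 0 := by
      have h3 : ((ℓ : LaurentSeries ℚ)) = HahnSeries.C (ℓ : ℚ) := (map_natCast _ _).symm
      rw [h3] at this
      exact HahnSeries.C_injective (by rw [this, map_zero])
    exact (Fact.out : ℓ.Prime).ne_zero (by exact_mod_cast h2)
  obtain ⟨n, a', ha', hra⟩ := exists_eq_pow_mul_red_ne_zero ℓ K ha
  obtain ⟨m, b', hb', hrb⟩ := exists_eq_pow_mul_red_ne_zero ℓ K hb
  have hla : iotaL ℓ a' ≠ 0 := iotaL_ne_zero ℓ K hra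
  have hlb : iotaL ℓ b' ≠ 0 := iotaL_ne_zero ℓ K hrb
  have hl' : iotaL ℓ (ℓ : LaurentSeries (Zl ℓ)) ≠ 0 := by
    rw [Ne, map_eq_zero_iff _ (iotaL_injective ℓ)]; exact hl
  rw [ha', hb'] at h
  simp only [map_mul, map_pow] at h
  rcases le_total m n with hmn | hmn
  · left
    obtain ⟨c, rfl⟩ := Nat.exists_eq_add_of_le hmn
    refine (mem_gaussO_iff ℓ K).mpr ⟨(ℓ : LaurentSeries (Zl ℓ)) ^ c * a', b', hrb, ?_⟩
    rw [map_mul, map_pow]
    apply mul_left_cancel₀ (pow_ne_zero m hl')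
    rw [pow_add] at h
    linear_combination h
  · right
    obtain ⟨c, rfl⟩ := Nat.exists_eq_add_of_le hmn
    have hx0 : x ≠ 0 := by
      rintro rfl
      rw [zero_mul] at h
      exact mul_ne_zero (pow_ne_zero _ hl') hla h.symm
    refine (mem_gaussO_iff ℓ K).mpr ⟨(ℓ : LaurentSeries (Zl ℓ)) ^ c * b', a', hra, ?_⟩
    rw [map_mul, map_pow]
    apply mul_left_cancel₀ (pow_ne_zero n hl')
    rw [pow_add] at h
    apply mul_left_cancel₀ hx0
    have : x * x⁻¹ = 1 := mul_inv_cancel₀ hx0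
    linear_combination (iotaL ℓ ↑ℓ ^ n * iotaL ℓ a') * this - h

end Fermat.Agent.Igusa
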