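import Mathlib
import Fermat.Agent.Igusa.GaussRing

set_option autoImplicit false
set_option linter.style.haveILetI false
set_option linter.unusedSectionVars false
open ModularCurve Polynomial
noncomputable section

namespace Fermat.Agent.Igusa

/-- evaluation of polynomials at a Laurent series -/
def evL {R : Type*} [CommRing R] (s : LaurentSeries R) : R[X] →+* LaurentSeries R :=
  eval₂RingHom HahnSeries.C s

theorem coeffMap_C {R S : Type*} [CommRing R] [CommRing S] (f : R →+* S) (r : R) :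
    coeffMap f (HahnSeries.C r) = HahnSeries.C (f r) := coeffMap_single f 0 r

theorem coeffMap_evL {R S : Type*} [CommRing R] [CommRing S] (f : R →+* S) (s : LaurentSeries R)
    (P : R[X]) : coeffMap f (evL s P) = evL (coeffMap f s) (P.map f) := by
  simp only [evL, coe_eval₂RingHom]
  rw [hom_eval₂, eval₂_map]
  congr 1
  ext r : 1
  exact coeffMap_C f r

variable (ℓ : ℕ) (K : Type*) [Field K] [Algebra (Zl ℓ) K] [CharP K ℓ]

theorem map_eq_zero_iff_C_dvd (P : (Zl ℓ)[X]) :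
    P.map (algebraMap (Zl ℓ) K) = 0 ↔ C (ℓ : Zl ℓ) ∣ P := by
  rw [C_dvd_iff_dvd_coeff]
  constructor
  · intro h i
    rw [← algebraMap_eq_zero_iff_dvd ℓ K, ← coeff_map, h, coeff_zero]
  · intro h
    ext i
    rw [coeff_map, coeff_zero, algebraMap_eq_zero_iff_dvd ℓ K]
    exact h i

variable [Fact ℓ.Prime]

theorem exists_eq_pow_mul_map_ne_zero {P : (Zl ℓ)[X]} (hP : P ≠ 0) :
    ∃ (n : ℕ) (P' : (Zl ℓ)[X]), P = C (ℓ : Zl ℓ) ^ n * P' ∧ P'.map (algebraMap (Zl ℓ) K) ≠ 0 := by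
  classical
  have hex : ∃ n, ¬ (C (ℓ : Zl ℓ)) ^ n ∣ P := by
    obtain ⟨m, hm⟩ : ∃ m, P.coeff m ≠ 0 := by
      by_contra hcon
      push Not at hcon
      exact hP (Polynomial.ext hcon)
    obtain ⟨n, hn⟩ := exists_not_pow_dvd ℓ hm
    refine ⟨n, fun h => hn ?_⟩
    rw [← C_pow, C_dvd_iff_dvd_coeff] at h
    exact h m
  obtain ⟨n, hn⟩ : ∃ n, Nat.find hex = n + 1 := by
    rcases h : Nat.find hex with _ | n
    · exfalso
      have := Nat.find_spec hex
      rw [h, pow_zero] at this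
      exact this (one_dvd _)
    · exact ⟨n, rfl⟩
  have h1 : (C (ℓ : Zl ℓ)) ^ n ∣ P := by
    by_contra hcon
    have := Nat.find_min' hex hcon
    omega
  have h2 : ¬ (C (ℓ : Zl ℓ)) ^ (n + 1) ∣ P := by
    rw [← hn]; exact Nat.find_spec hex
  obtain ⟨b, hb⟩ := h1
  refine ⟨n, b, hb, fun h => h2 ?_⟩
  rw [map_eq_zero_iff_C_dvd] at h
  obtain ⟨c, hc⟩ := h
  exact ⟨c, by rw [hb, hc, pow_succ, mul_assoc]⟩

theorem exists_pow_mul_lift (P : ℚ[X]) :
    ∃ (n : ℕ) (P' : (Zl ℓ)[X]), C ((ℓ : ℚ)^n) * P = P'.map (Subring.subtype _) := by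
  induction P using Polynomial.induction_on' with
  | add p q hp hq =>
    obtain ⟨n, p', hp'⟩ := hp
    obtain ⟨m, q', hq'⟩ := hq
    refine ⟨n + m, C ((ℓ : Zl ℓ)^m) * p' + C ((ℓ : Zl ℓ)^n) * q', ?_⟩
    have e : ∀ k : ℕ, (GaloisRep.ratLocalizedAt ℓ).subtype ((ℓ : Zl ℓ) ^ k) = (ℓ : ℚ) ^ k := by
      intro k; rw [map_pow, map_natCast]
    rw [Polynomial.map_add, Polynomial.map_mul, Polynomial.map_mul, Polynomial.map_C,
      Polynomial.map_C, ← hp', ← hq', e, e, pow_add, C_mul]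
    ring
  | monomial i c =>
    obtain ⟨m, a, ha⟩ := exists_pow_mul_mem ℓ c
    refine ⟨m, monomial i a, ?_⟩
    rw [C_mul_monomial, ha, map_monomial]
    rfl

theorem ell_ne_zero_laurent : (ℓ : LaurentSeries ℚ) ≠ 0 := by
  intro this
  have h2 : (ℓ : ℚ) = 0 := by
    have h3 : ((ℓ : LaurentSeries ℚ)) = HahnSeries.C (ℓ : ℚ) := (map_natCast _ _).symm
    rw [h3] at this
    exact HahnSeries.C_injective (by rw [this, map_zero])
  exact (Fact.out : ℓ.Prime).ne_zero (by exact_mod_cast h2)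

theorem redL_evL (s : LaurentSeries (Zl ℓ)) (P : (Zl ℓ)[X]) :
    redL ℓ K (evL s P) = evL (redL ℓ K s) (P.map (algebraMap (Zl ℓ) K)) := coeffMap_evL _ _ _

theorem iotaL_evL (s : LaurentSeries (Zl ℓ)) (P : (Zl ℓ)[X]) :
    iotaL ℓ (evL s P) = evL (iotaL ℓ s) (P.map (Subring.subtype _)) := coeffMap_evL _ _ _

/-- clearing powers of `ℓ` in a linear relation -/
theorem exists_relation_primitive {ι : Type*} [Fintype ι]
    (s : LaurentSeries (Zl ℓ)) (y : ι → LaurentSeries (Zl ℓ))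
    (hind : ∀ P : ι → K[X], ∑ i, evL (redL ℓ K s) (P i) * redL ℓ K (y i) = 0 → ∀ i, P i = 0)
    (z : gaussO ℓ K) (Q : (Zl ℓ)[X]) (hQ : Q ≠ 0) (P : ι → (Zl ℓ)[X])
    (hrel : iotaL ℓ (evL s Q) * (z : LaurentSeries ℚ) = iotaL ℓ (∑ i, evL s (P i) * y i)) :
    ∃ (Q' : (Zl ℓ)[X]) (P' : ι → (Zl ℓ)[X]), Q'.map (algebraMap (Zl ℓ) K) ≠ 0 ∧
      iotaL ℓ (evL s Q') * (z : LaurentSeries ℚ) = iotaL ℓ (∑ i, evL s (P' i) * y i) := by
  obtain ⟨n, Q', rfl, hQ'⟩ := exists_eq_pow_mul_map_ne_zero ℓ K hQ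
  clear hQ
  induction n generalizing P with
  | zero => exact ⟨Q', P, hQ', by simpa using hrel⟩
  | succ n ih =>
    have hz : ∀ i, (P i).map (algebraMap (Zl ℓ) K) = 0 := by
      apply hind
      have h1 := hrel
      have h2 : gaussRed ℓ K (⟨_, iotaL_mem_gaussO ℓ K (evL s (C (ℓ : Zl ℓ) ^ (n+1) * Q'))⟩ * z) =
          gaussRed ℓ K ⟨_, iotaL_mem_gaussO ℓ K (∑ i, evL s (P i) * y i)⟩ := by
        congr 1
        exact Subtype.ext h1
      rw [map_mul, gaussRed_iotaL, gaussRed_iotaL, redL_evL] at h2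
      have h3 : (C (ℓ : Zl ℓ) ^ (n + 1) * Q').map (algebraMap (Zl ℓ) K) = 0 := by
        rw [map_eq_zero_iff_C_dvd, pow_succ']
        exact ⟨_, mul_assoc _ _ _⟩
      rw [h3, map_zero, zero_mul, map_sum] at h2
      rw [h2]
      exact Finset.sum_congr rfl fun i _ => by rw [map_mul, redL_evL]
    have hdvd : ∀ i, ∃ c, P i = C (ℓ : Zl ℓ) * c := fun i =>
      (map_eq_zero_iff_C_dvd ℓ K (P i)).mp (hz i)
    choose c hc using hdvd
    apply ih c
    have hl := ell_ne_zero_laurent ℓ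
    apply mul_left_cancel₀ hl
    have e1 : (ℓ : LaurentSeries ℚ) = iotaL ℓ (evL s (C (ℓ : Zl ℓ))) := by
      simp
    rw [e1, ← mul_assoc, ← map_mul, ← map_mul, ← map_mul, Finset.mul_sum, ← mul_assoc, ← pow_succ', hrel]
    congr 1
    exact Finset.sum_congr rfl fun i _ => by rw [hc i, map_mul, mul_assoc]

end Fermat.Agent.Igusa
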