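import Mathlib
import Fermat.Agent.Igusa.Relation

set_option autoImplicit false
set_option linter.style.haveILetI false
set_option linter.unusedSectionVars false
open ModularCurve Polynomial IntermediateField
noncomputable section

namespace Fermat.Agent.Igusa

theorem exists_monic_of_integral_two {k L R₁ R₂ : Type*} [Field k] [Field L] [Algebra k L]
    [CommRing R₁] [IsDomain R₁] [IsIntegrallyClosed R₁] [Algebra R₁ k] [IsFractionRing R₁ k]
    [Algebra R₁ L] [IsScalarTower R₁ k L]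
    [CommRing R₂] [IsDomain R₂] [IsIntegrallyClosed R₂] [Algebra R₂ k] [IsFractionRing R₂ k]
    [Algebra R₂ L] [IsScalarTower R₂ k L]
    {z : L} (h1 : IsIntegral R₁ z) (h2 : IsIntegral R₂ z) :
    ∃ f : k[X], f.Monic ∧ aeval z f = 0 ∧
      ∀ n, f.coeff n ∈ (algebraMap R₁ k).range ∧ f.coeff n ∈ (algebraMap R₂ k).range := by
  have hk : IsIntegral k z := by
    have := h1.tower_top (A := k)
    exact this
  refine ⟨minpoly k z, minpoly.monic hk, minpoly.aeval k z, fun n => ⟨?_, ?_⟩⟩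
  · rw [minpoly.isIntegrallyClosed_eq_field_fractions' k h1, coeff_map]
    exact ⟨_, rfl⟩
  · rw [minpoly.isIntegrallyClosed_eq_field_fractions' k h2, coeff_map]
    exact ⟨_, rfl⟩

variable (ℓ : ℕ) (K : Type*) [Field K] [Algebra (Zl ℓ) K] [CharP K ℓ] [Fact ℓ.Prime]

variable {F : Type*} [Field F] [Algebra ℚ F] (e : F →+* LaurentSeries ℚ)

theorem evL_eq_aeval (s : F) (P : ℚ[X]) : evL (e s) P = e (aeval s P) := by
  rw [evL, coe_eval₂RingHom, aeval_def, hom_eval₂]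
  congr 1
  exact Subsingleton.elim _ _

/-- the Gauss valuation ring on a subfield of `F` -/
def gaussVal (hF : ∀ x : F, ∃ a b : LaurentSeries (Zl ℓ), b ≠ 0 ∧ e x * iotaL ℓ b = iotaL ℓ a)
    (k : IntermediateField ℚ F) : ValuationSubring k where
  toSubring := (gaussO ℓ K).comap (e.comp (k.val : k →+* F))
  mem_or_inv_mem' := by
    intro x
    have := mem_or_inv_mem_gaussO ℓ K (hF (x : F))
    rw [← map_inv₀] at this
    exact this

theorem mem_gaussVal_iff (hF) (k : IntermediateField ℚ F) (x : k) :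
    x ∈ gaussVal ℓ K e hF k ↔ e (x : F) ∈ gaussO ℓ K := Iff.rfl

/-- A polynomial over `ℚ` in `s` lying in the Gauss valuation ring has coefficients in `Zl`. -/
theorem exists_lift_of_mem_gaussO (sV : LaurentSeries (Zl ℓ))
    (htr : ∀ P : K[X], evL (redL ℓ K sV) P = 0 → P = 0) (P : ℚ[X])
    (h : evL (iotaL ℓ sV) P ∈ gaussO ℓ K) : ∃ P' : (Zl ℓ)[X], P = P'.map (Subring.subtype _) := by
  obtain ⟨n, P', hP'⟩ := exists_pow_mul_lift ℓ P
  induction n generalizing P' with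
  | zero => exact ⟨P', by simpa using hP'⟩
  | succ n ih =>
    have h0 : P'.map (algebraMap (Zl ℓ) K) = 0 := by
      apply htr
      rw [← redL_evL, ← gaussRed_iotaL]
      have h1 : (⟨iotaL ℓ (evL sV P'), iotaL_mem_gaussO ℓ K _⟩ : gaussO ℓ K) =
          (ℓ : gaussO ℓ K)^(n+1) * ⟨_, h⟩ := by
        apply Subtype.ext
        push_cast
        rw [iotaL_evL, ← hP', map_mul]
        congr 1
        rw [map_pow, map_pow]
        simp
      rw [h1, map_mul, map_pow, map_natCast]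
      have : ((ℓ : LaurentSeries K)) = HahnSeries.C (ℓ : K) := (map_natCast _ _).symm
      rw [this, CharP.cast_eq_zero, map_zero, pow_succ', zero_mul, zero_mul]
    obtain ⟨c, hc⟩ := (map_eq_zero_iff_C_dvd ℓ K P').mp h0
    apply ih c
    have hl : (C (ℓ : ℚ)) ≠ 0 := by
      rw [Ne, C_eq_zero]
      exact_mod_cast (Fact.out : ℓ.Prime).ne_zero
    apply mul_left_cancel₀ hl
    have e1 : C (ℓ : ℚ) = (C (ℓ : Zl ℓ)).map (Subring.subtype _) := by
      rw [Polynomial.map_C]; rfl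
    have e2 : C (ℓ : ℚ) * (C ((ℓ : ℚ)^n) * P) = C ((ℓ : ℚ)^(n+1)) * P := by
      rw [← mul_assoc, ← C_mul, ← pow_succ']
    rw [e2, hP', hc, e1, ← Polynomial.map_mul]

/-- Transcendence over `ℚ` from transcendence of the reduction. -/
theorem transcendental_of_red (sV : LaurentSeries (Zl ℓ))
    (htr : ∀ P : K[X], evL (redL ℓ K sV) P = 0 → P = 0) (P : ℚ[X])
    (h : evL (iotaL ℓ sV) P = 0) : P = 0 := by
  obtain ⟨n, P', hP'⟩ := exists_pow_mul_lift ℓ P
  have h1 : evL sV P' = 0 := by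
    apply iotaL_injective
    rw [map_zero, iotaL_evL, ← hP', map_mul, h, mul_zero]
  have hl : (C ((ℓ : ℚ)^n)) ≠ 0 := by
    rw [Ne, C_eq_zero]
    exact pow_ne_zero _ (by exact_mod_cast (Fact.out : ℓ.Prime).ne_zero)
  by_contra hP
  have hP0 : P' ≠ 0 := by
    rintro rfl
    rw [Polynomial.map_zero] at hP'
    exact mul_ne_zero hl hP hP'
  obtain ⟨m, P'', rfl, hr⟩ := exists_eq_pow_mul_map_ne_zero ℓ K hP0
  have h2 : evL sV P'' = 0 := by
    rw [map_mul, mul_eq_zero] at h1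
    rcases h1 with h1 | h1
    · exfalso
      have := congrArg (iotaL ℓ) h1
      rw [map_pow, map_pow, map_zero] at this
      apply pow_ne_zero m (ell_ne_zero_laurent ℓ)
      rw [← this]
      congr 1
      simp
    · exact h1
  apply hr
  apply htr
  rw [← redL_evL, h2, map_zero]

/-- Main integrality statement. -/
theorem integral_of_integral_rat
    (hF : ∀ x : F, ∃ a b : LaurentSeries (Zl ℓ), b ≠ 0 ∧ e x * iotaL ℓ b = iotaL ℓ a)
    (s : F) (sV : LaurentSeries (Zl ℓ)) (hs : iotaL ℓ sV = e s)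
    (htr : ∀ P : K[X], evL (redL ℓ K sV) P = 0 → P = 0)
    {ι : Type*} [Fintype ι] (y : ι → LaurentSeries (Zl ℓ)) (yF : ι → F)
    (hy : ∀ i, iotaL ℓ (y i) = e (yF i))
    (hyint : ∀ i, IsIntegral (gaussVal ℓ K e hF ℚ⟮s⟯) (yF i))
    (hspan : ∀ x : F, ∃ Q : ℚ[X], Q ≠ 0 ∧ ∃ P : ι → ℚ[X],
      aeval s Q * x = ∑ i, aeval s (P i) * yF i)
    (hind : ∀ P : ι → K[X], ∑ i, evL (redL ℓ K sV) (P i) * redL ℓ K (y i) = 0 → ∀ i, P i = 0)
    (x : F) (hx : IsIntegral (Algebra.adjoin ℚ {s}) x) (hxO : e x ∈ gaussO ℓ K) :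
    ∃ f : F[X], f.Monic ∧ f.eval x = 0 ∧
      ∀ n, ∃ P : (Zl ℓ)[X], f.coeff n = aeval s (P.map (Subring.subtype _)) := by
  have htrQ : ∀ P : ℚ[X], aeval s P = 0 → P = 0 := by
    intro P hP
    apply transcendental_of_red ℓ K sV htr
    rw [hs, evL_eq_aeval, hP, map_zero]
  have htrans : Transcendental ℚ s := by
    rw [transcendental_iff]
    exact htrQ
  -- clear denominators
  obtain ⟨Q₀, hQ₀, P₀, h₀⟩ := hspan x
  obtain ⟨n, Q₁, hQ₁⟩ := exists_pow_mul_lift ℓ Q₀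
  have hlift : ∀ i, ∃ (n : ℕ) (P' : (Zl ℓ)[X]), C ((ℓ : ℚ)^n) * P₀ i = P'.map (Subring.subtype _) :=
    fun i => exists_pow_mul_lift ℓ (P₀ i)
  choose m P₁ hP₁ using hlift
  -- common power
  set M := n + ∑ i, m i with hM
  have hmM : ∀ i, ∃ c, M = m i + c := fun i => by
    have : m i ≤ ∑ i, m i := Finset.single_le_sum (fun _ _ => Nat.zero_le _) (Finset.mem_univ i)
    exact ⟨M - m i, by omega⟩
  choose c hc using hmM
  have hl : (ℓ : ℚ) ≠ 0 := by exact_mod_cast (Fact.out : ℓ.Prime).ne_zero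
  have epow : ∀ k : ℕ, C ((ℓ : ℚ)^k) = (C ((ℓ : Zl ℓ)^k)).map (Subring.subtype _) := by
    intro k
    have e : (GaloisRep.ratLocalizedAt ℓ).subtype ((ℓ : Zl ℓ) ^ k) = (ℓ : ℚ) ^ k := by
      rw [map_pow, map_natCast]
    rw [Polynomial.map_C, e]
  obtain ⟨Q', P', hQ', hrel⟩ := exists_relation_primitive ℓ K sV y hind ⟨e x, hxO⟩
    (C ((ℓ : Zl ℓ)^(∑ i, m i)) * Q₁)
    (by
      intro h
      have h2 := congrArg (Polynomial.map (Subring.subtype (GaloisRep.ratLocalizedAt ℓ))) h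
      rw [Polynomial.map_mul, ← epow, ← hQ₁, Polynomial.map_zero] at h2
      refine mul_ne_zero ?_ (mul_ne_zero ?_ hQ₀) h2
      · rw [Ne, C_eq_zero]; exact pow_ne_zero _ hl
      · rw [Ne, C_eq_zero]; exact pow_ne_zero _ hl)
    (fun i => C ((ℓ : Zl ℓ)^(c i)) * P₁ i)
    (by
      rw [iotaL_evL, Polynomial.map_mul, ← epow, ← hQ₁, ← mul_assoc, ← C_mul, ← pow_add,
        hs, evL_eq_aeval, ← map_mul, map_mul (aeval s), mul_assoc, h₀, Finset.mul_sum, map_sum,
        map_sum]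
      apply Finset.sum_congr rfl
      intro i _
      have e3 : (∑ i, m i) + n = c i + m i := by rw [add_comm (c i), ← hc i, hM]; ring
      rw [map_mul (iotaL ℓ), iotaL_evL, Polynomial.map_mul, ← epow, ← hP₁,
        ← mul_assoc (C _) (C _), ← C_mul, ← pow_add, hs, evL_eq_aeval, hy, ← map_mul, e3,
        map_mul (aeval s), mul_assoc])
  -- x is integral over the Gauss valuation ring
  have hQ'r : redL ℓ K (evL sV Q') ≠ 0 := by
    rw [redL_evL]
    exact fun h => hQ' (htr _ h)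
  have hQ'0 : aeval s (Q'.map (Subring.subtype _)) ≠ 0 := by
    intro h
    apply iotaL_ne_zero ℓ K hQ'r
    rw [iotaL_evL, hs, evL_eq_aeval, h, map_zero]
  have hx1 : IsIntegral (gaussVal ℓ K e hF ℚ⟮s⟯) x := by
    have hmemk : ∀ P : ℚ[X], aeval s P ∈ ℚ⟮s⟯ := fun P =>
      algebra_adjoin_le_adjoin ℚ _ (aeval_mem_adjoin_singleton ℚ s)
    -- coefficients
    let a : ι → ℚ⟮s⟯ := fun i => ⟨aeval s ((P' i).map (Subring.subtype _)), hmemk _⟩ /
      ⟨aeval s (Q'.map (Subring.subtype _)), hmemk _⟩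
    have ha : ∀ i, a i ∈ gaussVal ℓ K e hF ℚ⟮s⟯ := by
      intro i
      rw [mem_gaussVal_iff, mem_gaussO_iff]
      refine ⟨evL sV (P' i), evL sV Q', hQ'r, ?_⟩
      rw [iotaL_evL, iotaL_evL, hs, evL_eq_aeval, evL_eq_aeval, ← map_mul]
      congr 1
      change aeval s _ / aeval s _ * _ = _
      exact div_mul_cancel₀ _ hQ'0
    have hxeq : x = ∑ i, (⟨a i, ha i⟩ : gaussVal ℓ K e hF ℚ⟮s⟯) • yF i := by
      apply mul_left_cancel₀ hQ'0
      apply e.injective
      rw [map_mul, ← evL_eq_aeval, ← hs, ← iotaL_evL, hrel, Finset.mul_sum, map_sum, map_sum]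
      apply Finset.sum_congr rfl
      intro i _
      rw [map_mul (iotaL ℓ), iotaL_evL, hs, evL_eq_aeval, hy, ← map_mul]
      congr 1
      change _ = aeval s _ * ((aeval s _ / aeval s _) * _)
      field_simp
    rw [hxeq]
    exact IsIntegral.sum _ fun i _ => (hyint i).smul _
  haveI : UniqueFactorizationMonoid (Algebra.adjoin ℚ {s}) := htrans.uniqueFactorizationMonoid_adjoin
  open scoped IntermediateField.algebraAdjoinAdjoin in
  obtain ⟨f, hf1, hf2, hf3⟩ := exists_monic_of_integral_two (k := ℚ⟮s⟯) hx1 hx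
  refine ⟨f.map (algebraMap _ F), hf1.map _, by rw [eval_map_algebraMap, hf2], fun n => ?_⟩
  obtain ⟨⟨r1, h1⟩, ⟨r2, h2⟩⟩ := hf3 n
  rw [coeff_map]
  obtain ⟨P, hP⟩ : ∃ P : ℚ[X], aeval s P = algebraMap _ F (f.coeff n) := by
    have hr2 : ∀ y : F, y ∈ Algebra.adjoin ℚ {s} → y ∈ (aeval (R := ℚ) s).range := by
      intro y hy
      rwa [Algebra.adjoin_singleton_eq_range_aeval] at hy
    obtain ⟨P, hP⟩ := hr2 _ r2.2
    refine ⟨P, ?_⟩
    rw [← h2]
    exact hP
  obtain ⟨P'', hP''⟩ := exists_lift_of_mem_gaussO ℓ K sV htr P (by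
    rw [hs, evL_eq_aeval, hP, ← h1]
    exact (mem_gaussVal_iff ℓ K e hF _ _).mp r1.2)
  exact ⟨P'', by rw [← hP'', hP]⟩

end Fermat.Agent.Igusa
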