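import Fermat.Statements.S28

set_option autoImplicit false
set_option linter.style.haveILetI false
open AlgebraicGeometry CategoryTheory CategoryTheory.Limits ModularCurve ModularCurve.IgusaScheme TensorProduct
noncomputable section

namespace Fermat.Agent.Igusa

universe u

theorem isIntegral_of_two_charts {X Y₁ Y₂ : Scheme.{u}} (f₁ : Y₁ ⟶ X) (f₂ : Y₂ ⟶ X)
    [IsOpenImmersion f₁] [IsOpenImmersion f₂] [IsIntegral Y₁] [IsIntegral Y₂]
    (hcov : ∀ x : X, x ∈ Set.range f₁.base ∨ x ∈ Set.range f₂.base)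
    (hmeet : ∃ x : X, x ∈ Set.range f₁.base ∧ x ∈ Set.range f₂.base) : IsIntegral X := by
  haveI : IsReduced X := by
    haveI : ∀ x : X, _root_.IsReduced (X.presheaf.stalk x) := by
      intro x
      rcases hcov x with ⟨y, rfl⟩ | ⟨y, rfl⟩
      · exact isReduced_of_injective _ (asIso <| f₁.stalkMap y).commRingCatIsoToRingEquiv.injective
      · exact isReduced_of_injective _ (asIso <| f₂.stalkMap y).commRingCatIsoToRingEquiv.injective
    exact isReduced_of_isReduced_stalk X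
  have hirr : ∀ {Y : Scheme.{u}} (f : Y ⟶ X) [IsOpenImmersion f] [IsIntegral Y],
      IsPreirreducible (Set.range f.base) := by
    intro Y f _ _
    have := (IrreducibleSpace.isIrreducible_univ Y).isPreirreducible
    rw [← Set.image_univ]
    exact this.image _ f.continuous.continuousOn
  have key : IsPreirreducible (Set.univ : Set X) := by
    have h1 := hirr f₁
    have h2 := hirr f₂
    have o1 : IsOpen (Set.range f₁.base) := f₁.isOpenEmbedding.isOpen_range
    have o2 : IsOpen (Set.range f₂.base) := f₂.isOpenEmbedding.isOpen_range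
    -- every nonempty open meets range f₁
    have hm : ∀ W : Set X, IsOpen W → W.Nonempty → (Set.range f₁.base ∩ W).Nonempty := by
      rintro W hW ⟨x, hx⟩
      rcases hcov x with h | h
      · exact ⟨x, h, hx⟩
      · obtain ⟨y, hy1, hy2⟩ := hmeet
        obtain ⟨z, hz⟩ := h2 _ _ o1 hW ⟨y, hy2, hy1⟩ ⟨x, h, hx⟩
        exact ⟨z, hz.2.1, hz.2.2⟩
    rintro W1 W2 hW1 hW2 ⟨x1, -, hx1⟩ ⟨x2, -, hx2⟩
    obtain ⟨z, hz⟩ := h1 _ _ hW1 hW2 (hm W1 hW1 ⟨x1, hx1⟩) (hm W2 hW2 ⟨x2, hx2⟩)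
    exact ⟨z, trivial, hz.2⟩
  haveI : IrreducibleSpace X := by
    obtain ⟨x, -⟩ := hmeet
    exact { isPreirreducible_univ := key, toNonempty := ⟨x⟩ }
  exact isIntegral_of_irreducibleSpace_of_isReduced X

/-- base change of an affine chart -/
theorem isIntegral_pullback_spec (R A K : Type u) [CommRing R] [CommRing A] [CommRing K]
    [Algebra R A] [Algebra R K] [IsDomain (A ⊗[R] K)] :
    IsIntegral (pullback (Spec.map (CommRingCat.ofHom (algebraMap R A)))
      (Spec.map (CommRingCat.ofHom (algebraMap R K)))) := by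
  have e := pullbackSpecIso R A K
  haveI : Nonempty ↑(pullback (Spec.map (CommRingCat.ofHom (algebraMap R A)))
      (Spec.map (CommRingCat.ofHom (algebraMap R K)))) := by
    obtain ⟨x⟩ : Nonempty (Spec (CommRingCat.of (A ⊗[R] K))) := inferInstance
    exact ⟨e.inv.base x⟩
  exact isIntegral_of_isOpenImmersion e.hom

theorem nonempty_pullback_spec (R A K : Type u) [CommRing R] [CommRing A] [CommRing K]
    [Algebra R A] [Algebra R K] [Nontrivial (A ⊗[R] K)] :
    Nonempty ↑(pullback (Spec.map (CommRingCat.ofHom (algebraMap R A)))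
      (Spec.map (CommRingCat.ofHom (algebraMap R K)))) := by
  have e := pullbackSpecIso R A K
  obtain ⟨x⟩ : Nonempty (Spec (CommRingCat.of (A ⊗[R] K))) := inferInstance
  exact ⟨e.inv.base x⟩

variable (N : ℕ) [NeZero N] (ℓ : ℕ) [Fact ℓ.Prime]

theorem isIntegral_pullback_igusaTo
    (K : Type) [Field K] [Algebra ↥(GaloisRep.ratLocalizedAt ℓ) K]
    (hF : IsDomain (chartAlgFin N ℓ ⊗[↥(GaloisRep.ratLocalizedAt ℓ)] K))
    (hI : IsDomain (chartAlgInf N ℓ ⊗[↥(GaloisRep.ratLocalizedAt ℓ)] K))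
    (hM : Nontrivial (chartAlgMid N ℓ ⊗[↥(GaloisRep.ratLocalizedAt ℓ)] K)) :
    IsIntegral ↑(pullback (igusaTo N ℓ)
      (Spec.map (CommRingCat.ofHom (algebraMap ↥(GaloisRep.ratLocalizedAt ℓ) K)))) := by
  set g := Spec.map (CommRingCat.ofHom (algebraMap ↥(GaloisRep.ratLocalizedAt ℓ) K)) with hg
  -- chart maps
  have h1 : IsIntegral (pullback (ιFin N ℓ ≫ igusaTo N ℓ) g) := by
    rw [ιFin_igusaTo]
    exact isIntegral_pullback_spec _ _ _
  have h2 : IsIntegral (pullback (ιInf N ℓ ≫ igusaTo N ℓ) g) := by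
    rw [ιInf_igusaTo]
    exact isIntegral_pullback_spec _ _ _
  have h3 : Nonempty ↑(pullback ((fFin N ℓ ≫ ιFin N ℓ) ≫ igusaTo N ℓ) g) := by
    rw [Category.assoc, ιFin_igusaTo, ← Spec.map_comp, ← CommRingCat.ofHom_comp]
    exact nonempty_pullback_spec _ (chartAlgMid N ℓ) K
  let f₁ : pullback (ιFin N ℓ ≫ igusaTo N ℓ) g ⟶ pullback (igusaTo N ℓ) g :=
    pullback.map _ _ _ _ (ιFin N ℓ) (𝟙 _) (𝟙 _) (by simp) (by simp)
  let f₂ : pullback (ιInf N ℓ ≫ igusaTo N ℓ) g ⟶ pullback (igusaTo N ℓ) g :=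
    pullback.map _ _ _ _ (ιInf N ℓ) (𝟙 _) (𝟙 _) (by simp) (by simp)
  let f₃ : pullback ((fFin N ℓ ≫ ιFin N ℓ) ≫ igusaTo N ℓ) g ⟶ pullback (igusaTo N ℓ) g :=
    pullback.map _ _ _ _ (fFin N ℓ ≫ ιFin N ℓ) (𝟙 _) (𝟙 _) (by simp) (by simp)
  haveI : IsOpenImmersion f₁ := inferInstance
  haveI : IsOpenImmersion f₂ := inferInstance
  have r1 : Set.range f₁ = pullback.fst (igusaTo N ℓ) g ⁻¹' Set.range (ιFin N ℓ) := by
    simp only [f₁]
    rw [Scheme.Pullback.range_map]
    simp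
  have r2 : Set.range f₂ = pullback.fst (igusaTo N ℓ) g ⁻¹' Set.range (ιInf N ℓ) := by
    simp only [f₂]
    rw [Scheme.Pullback.range_map]
    simp
  have r3 : Set.range f₃ = pullback.fst (igusaTo N ℓ) g ⁻¹' Set.range (fFin N ℓ ≫ ιFin N ℓ) := by
    simp only [f₃]
    rw [Scheme.Pullback.range_map]
    simp
  have r31 : Set.range f₃ ⊆ Set.range f₁ := by
    rw [r3, r1]
    apply Set.preimage_mono
    rw [Scheme.Hom.comp_base, TopCat.coe_comp]
    exact Set.range_comp_subset_range _ _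
  have r32 : Set.range f₃ ⊆ Set.range f₂ := by
    rw [r3, r2]
    apply Set.preimage_mono
    rw [glue_condition, Scheme.Hom.comp_base, TopCat.coe_comp]
    exact Set.range_comp_subset_range _ _
  refine isIntegral_of_two_charts f₁ f₂ ?_ ?_
  · intro x
    have := mem_range_ιFin_or_mem_range_ιInf N ℓ (pullback.fst (igusaTo N ℓ) g x)
    rcases this with h | h
    · left
      rw [r1]; exact h
    · right
      rw [r2]; exact h
  · obtain ⟨y⟩ := h3
    exact ⟨f₃ y, r31 ⟨y, rfl⟩, r32 ⟨y, rfl⟩⟩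

end Fermat.Agent.Igusa
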